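import Fermat.Agent.Lib.Frob.Statement

/-!
# Shared library `Frob` — second-level FROZEN interfaces (row S52, row-lead helper472)

`FrobRelation ⇐ FrobRelationFin ∧ ReductionData`   (proved in `Glue.lean`).

* `FrobRelationFin` (piece A2): over `𝔽_ℓ`, `ℓ ≥ 5`:  `Φ² − a·Φ + ℓ = 0` on `E(k)` for every field
  `k ⊇ 𝔽_ℓ`, where `Φ` is the `ℓ`-power Frobenius on coordinates and `a = ℓ + 1 − #E(𝔽_ℓ)`.
* `ReductionData` (piece A1): reduction of prime-to-`ℓ` torsion at a valuation subring of `ℚ̄` above a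
  good prime `ℓ` is an injective additive map into the points of the reduced curve over the residue
  field, intertwining a Frobenius element with `Φ`.
No `sorry` in this file (definitions only).
-/

set_option autoImplicit false

open WeierstrassCurve WeierstrassCurve.Affine WeierstrassCurve.Affine.Point

namespace Fermat.Agent.Lib.Frob

/-- The `ℓ`-power Frobenius endomorphism of the group `E(k)`, `k ⊇ 𝔽_ℓ`. -/
noncomputable def frobPt (ℓ : ℕ) [Fact ℓ.Prime] (E : WeierstrassCurve (ZMod ℓ))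
    (k : Type) [Field k] [Algebra (ZMod ℓ) k] [DecidableEq k] :
    (E⁄k).Point →+ (E⁄k).Point :=
  Point.map (W' := E) (FiniteField.frobeniusAlgHom (ZMod ℓ) k)

/-- **Piece A2 (Hasse–Weil relation over `𝔽_ℓ`).** -/
def FrobRelationFin : Prop :=
  ∀ (ℓ : ℕ) [Fact ℓ.Prime], 5 ≤ ℓ → ∀ (E : WeierstrassCurve (ZMod ℓ)), E.Δ ≠ 0 →
    ∀ (k : Type) [Field k] [Algebra (ZMod ℓ) k] [DecidableEq k] (P : (E⁄k).Point),
      frobPt ℓ E k (frobPt ℓ E k P) - E.traceOfFrobenius • frobPt ℓ E k P + (ℓ : ℤ) • P = 0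

/-- **Piece A1 (reduction of torsion).**  For `ℓ` prime, `W` good at `ℓ`, `A` a valuation subring of
`ℚ̄` over `ℓ`, `σ` a Frobenius at `A`, `n > 0` prime to `ℓ`: there are a field `k` of
characteristic `ℓ` and an injective additive map `red : W[n](ℚ̄) → (W mod ℓ)(k)` with
`red (σ • P) = Φ (red P)`. -/
def ReductionData : Prop :=
  ∀ (W : WeierstrassCurve ℤ) (ℓ : ℕ) [Fact ℓ.Prime], W.IsGoodPrimeFor ℓ →
    ∀ (A : ValuationSubring Qb) (σ : Qb ≃ₐ[ℚ] Qb), A.LiesOverPrime ℓ → A.IsFrobeniusAt σ ℓ →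
      ∀ (n : ℕ), 0 < n → ¬ ℓ ∣ n →
        ∃ (k : Type) (_ : Field k) (_ : Algebra (ZMod ℓ) k) (_ : DecidableEq k)
          (red : Submodule.torsionBy ℤ (Pts W) n →+ ((W.reductionMod ℓ)⁄k).Point),
          Function.Injective red ∧
          ∀ P : Submodule.torsionBy ℤ (Pts W) n,
            red (σ • P) = frobPt ℓ (W.reductionMod ℓ) k (red P)

end Fermat.Agent.Lib.Frob
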