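import Mathlib
import Fermat.Prelude.Def_FLTPrelim_GaloisRep
import Fermat.Prelude.Def_FLTPrelim_Modularity
import Fermat.Prelude.Def_FLTPrelim_ModularRep
import Fermat.Prelude.Def_FLTPrelim_Ramification
import Fermat.Prelude.Def_EllipticCurve_FrobeniusTrace

/-!
# Shared library `Frob` — FROZEN INTERFACE (row S52, row-lead helper472)

`FrobRelation` is the statement "Frobenius satisfies `σ² − a_ℓ σ + ℓ = 0` on the
prime-to-`ℓ` torsion of `W(ℚ̄)`", for a prime `ℓ ≥ 5` of good reduction of the integral model `W`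
and EVERY Frobenius element `σ` at EVERY valuation subring of `ℚ̄` above `ℓ`.

This file only contains definitions (no `sorry`).  The proof is delivered as
`theorem Fermat.Agent.Lib.Frob.frobRelation : FrobRelation` in `Fermat/Agent/Lib/Frob/Main.lean`.
-/

set_option autoImplicit false

open WeierstrassCurve WeierstrassCurve.Affine WeierstrassCurve.Affine.Point

namespace Fermat.Agent.Lib.Frob

/-- `ℚ̄`. -/
abbrev Qb : Type := AlgebraicClosure ℚ

/-- The group of `ℚ̄`-points of the integral Weierstrass model `W` (exactly the type on which the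
Prelude Galois action `instSMulAlgEquiv` and `ModRepIsIrreducible` are defined). -/
abbrev Pts (W : WeierstrassCurve ℤ) : Type :=
  ((W.map (Int.castRingHom ℚ))⁄Qb).Point

/-- **Frobenius relation (T1).**  For a prime `ℓ ≥ 5` with `ℓ ∤ Δ(W)`, a valuation subring `A` of
`ℚ̄` above `ℓ`, a Frobenius element `σ` at `A`, and a point `P ∈ W(ℚ̄)` killed by some `n > 0`
prime to `ℓ`:  `σ²P − a_ℓ(W)·σP + ℓ·P = 0`,  where `a_ℓ(W) = W.apOfModel ℓ = ℓ + 1 − #W(𝔽_ℓ)`. -/
def FrobRelation : Prop :=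
  ∀ (W : WeierstrassCurve ℤ) (ℓ : ℕ), ℓ.Prime → 5 ≤ ℓ → W.IsGoodPrimeFor ℓ →
    ∀ (A : ValuationSubring Qb) (σ : Qb ≃ₐ[ℚ] Qb), A.LiesOverPrime ℓ → A.IsFrobeniusAt σ ℓ →
      ∀ (n : ℕ), 0 < n → ¬ ℓ ∣ n → ∀ P : Pts W, n • P = 0 →
        σ • σ • P - W.apOfModel ℓ • σ • P + (ℓ : ℤ) • P = 0

end Fermat.Agent.Lib.Frob
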